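/-
Fermat/Agent/MAZ/InertiaInv5/Spec.lean  (helper5)

Programme MAZ (S15), brick TAME-r-GLOB, in the exact form of helper42's spec (report 1040):
**(A2) from unipotence** for finite smooth modules of the level basis `galLevel`.

  `card_le_card_inv_inertia_sq` : `V` finite, smooth for `galLevel`, killed by a power of `r ≠ p`,
  every `τ` in the inertia group of `A` (over `p`) with `(τ - 1)² = 0` on `V`
  ⇒ `|V| ≤ |V^I|²`.
-/
import Mathlib
import Fermat.Agent.MAZ.FlatCond42.System
import Fermat.Agent.MAZ.InertiaInv5.Main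

set_option autoImplicit false
set_option linter.unusedSectionVars false
set_option linter.style.haveILetI false

namespace Fermat.Agent.MAZ.InertiaInv5

open Fermat.Agent.Flat44 Fermat.Agent.MAZ.SelCoh42 Fermat.Agent.MAZ.FlatCond42

/-- A finite smooth module has finite level. -/
theorem exists_level_of_isSmooth {V : Type} [AddCommGroup V] [DistribMulAction GQ V] [Finite V]
    (hsm : IsSmooth galLevel V) :
    ∃ (L : IntermediateField ℚ (AlgebraicClosure ℚ)), FiniteDimensional ℚ L ∧
      ∀ σ : GQ, (∀ x ∈ L, σ x = x) → ∀ v : V, σ • v = v := by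
  classical
  haveI := Fintype.ofFinite V
  -- induction over finite sets of vectors
  have key : ∀ s : Finset V, ∃ (L : IntermediateField ℚ (AlgebraicClosure ℚ)),
      FiniteDimensional ℚ L ∧ ∀ σ : GQ, (∀ x ∈ L, σ x = x) → ∀ v ∈ s, σ • v = v := by
    intro s
    induction s using Finset.induction_on with
    | empty => exact ⟨⊥, inferInstance, fun _ _ v hv => absurd hv (Finset.notMem_empty v)⟩
    | insert a s _ ih =>
      obtain ⟨L, hL, h⟩ := ih
      obtain ⟨U, ⟨F, hF, rfl⟩, hU⟩ := hsm a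
      haveI := hL
      haveI := hF
      refine ⟨L ⊔ F, inferInstance, fun σ hσ v hv => ?_⟩
      rcases Finset.mem_insert.1 hv with rfl | hv
      · refine hU σ ((IntermediateField.mem_fixingSubgroup_iff _ _).2 fun x hx => ?_)
        exact hσ x ((le_sup_right : F ≤ L ⊔ F) hx)
      · exact h σ (fun x hx => hσ x ((le_sup_left : L ≤ L ⊔ F) hx)) v hv
  obtain ⟨L, hL, h⟩ := key Finset.univ
  exact ⟨L, hL, fun σ hσ v => h σ hσ v (Finset.mem_univ v)⟩

/-- **TAME-r-GLOB** (spec of report 1040): `|V| ≤ |V^I|²`. -/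
theorem card_le_card_inv_inertia_sq (p r : ℕ) [Fact p.Prime] [Fact r.Prime] (hpr : p ≠ r)
    {V : Type} [AddCommGroup V] [DistribMulAction GQ V] [Finite V] (hsm : IsSmooth galLevel V)
    (hr : ∃ k : ℕ, ∀ x : V, r ^ k • x = 0) (A : ValuationSubring (AlgebraicClosure ℚ))
    (hA : A.LiesOverPrime p)
    (hunip : ∀ τ ∈ A.inertiaSubgroupIn ℚ, ∀ x : V, τ • τ • x + x = τ • x + τ • x) :
    Nat.card V ≤ Nat.card (Inv (A.inertiaSubgroupIn ℚ) V) ^ 2 := by
  obtain ⟨L, hL, hlev⟩ := exists_level_of_isSmooth hsm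
  obtain ⟨k, hk⟩ := hr
  haveI := hL
  exact card_le_card_Inv_sq (Fact.out : p.Prime) (Fact.out : r.Prime) (Ne.symm hpr) A hA L hlev hk
    hunip

end Fermat.Agent.MAZ.InertiaInv5
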