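/-
Fermat/Agent/MAZ/InertiaInv5/Unip.lean  (helper5)

Programme MAZ (S15), input (A2) of report 976 §3, abstract half (Mathlib only).

`V` a finite abelian group.
* `card_le_card_fixed_sq` : if the endomorphism `t` satisfies `(t - 1)² = 0`, then
  `|V| ≤ |ker (t - 1)|²`  (`ker (t - 1) ⊇ im (t - 1)`).
* `pow_smul_eq_of_unip` : if `g` acts with `(g - 1)² = 0` then `g ^ n • v = v + n • (g • v - v)`.
* `card_le_card_fixed_sq_of_cyclic` : a group `I` acting on `V` through unipotent operators of
  level `2` such that the action of `I` is generated by one element `τ₀` (every `τ ∈ I` acts as a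
  power of `τ₀`) satisfies `|V| ≤ |V^I|²`.
-/
import Mathlib

set_option autoImplicit false
set_option linter.unusedSectionVars false

namespace Fermat.Agent.MAZ.InertiaInv5

section Single

variable {V : Type*} [AddCommGroup V]

/-- `|V| ≤ |ker (t - 1)|²` when `(t - 1)² = 0`. -/
theorem card_le_card_fixed_sq [Finite V] (t : V →+ V)
    (ht : ∀ v, t (t v) + v = t v + t v) :
    Nat.card V ≤ Nat.card ((t - AddMonoidHom.id V).ker) ^ 2 := by
  set N : V →+ V := t - AddMonoidHom.id V with hN
  have hNN : ∀ v, N (N v) = 0 := by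
    intro v
    simp only [hN, AddMonoidHom.sub_apply, AddMonoidHom.id_apply, map_sub]
    have := ht v
    have e : t (t v) - t v - (t v - v) = (t (t v) + v) - (t v + t v) := by abel
    rw [e, this, sub_self]
  have hle : N.range ≤ N.ker := by
    rintro _ ⟨v, rfl⟩
    exact hNN v
  have h1 : Nat.card N.ker * Nat.card N.range = Nat.card V := by
    rw [← AddSubgroup.index_ker]
    exact AddSubgroup.card_mul_index N.ker
  have h2 : Nat.card N.range ≤ Nat.card N.ker :=
    Nat.card_le_card_of_injective (AddSubgroup.inclusion hle) (AddSubgroup.inclusion_injective hle)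
  calc Nat.card V = Nat.card N.ker * Nat.card N.range := h1.symm
    _ ≤ Nat.card N.ker * Nat.card N.ker := Nat.mul_le_mul_left _ h2
    _ = Nat.card N.ker ^ 2 := (sq _).symm

end Single

section Action

variable {G : Type*} [Group G] {V : Type*} [AddCommGroup V] [DistribMulAction G V]

/-- Powers of a unipotent operator of level `2`. -/
theorem pow_smul_eq_of_unip {g : G} (hg : ∀ v : V, g • g • v + v = g • v + g • v) (n : ℕ) (v : V) :
    g ^ n • v = v + n • (g • v - v) := by
  induction n with
  | zero => simp
  | succ n ih =>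
    have h2 : g • g • v - g • v = g • v - v := by
      have := hg v
      have e : g • g • v - g • v - (g • v - v) = (g • g • v + v) - (g • v + g • v) := by abel
      exact sub_eq_zero.1 (by rw [e, this, sub_self])
    have h3 : g • (n • (g • v - v)) = n • (g • v - v) := by
      rw [smul_comm, smul_sub, h2]
    rw [pow_succ', mul_smul, ih, smul_add, h3, succ_nsmul]
    abel

/-- A unipotent operator of level `2` on a group killed by `m` has order dividing `m`. -/
theorem pow_smul_eq_self_of_unip {g : G} (hg : ∀ v : V, g • g • v + v = g • v + g • v) {m : ℕ}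
    (hm : ∀ v : V, m • v = 0) (v : V) : g ^ m • v = v := by
  rw [pow_smul_eq_of_unip hg, hm, add_zero]

/-- Integer powers. -/
theorem zpow_smul_eq_self_of_smul_eq_self {g : G} {v : V} (h : g • v = v) (n : ℤ) :
    g ^ n • v = v := by
  have hinv : g⁻¹ • v = v := by
    conv_lhs => rw [← h]
    rw [inv_smul_smul]
  have hpow : ∀ (x : G), x • v = v → ∀ k : ℕ, x ^ k • v = v := by
    intro x hx k
    induction k with
    | zero => simp
    | succ k ih => rw [pow_succ, mul_smul, hx, ih]
  cases n with
  | ofNat k => simpa using hpow g h k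
  | negSucc k =>
    rw [zpow_negSucc, ← inv_pow]
    exact hpow _ hinv _

/-- **(A2), abstract form.**  If a subgroup `I` acts on the finite group `V` through operators with
`(τ - 1)² = 0` and its action is generated by one `τ₀ ∈ I`, then `|V| ≤ |V^I|²`. -/
theorem card_le_card_fixed_sq_of_cyclic [Finite V] (I : Subgroup G)
    (hunip : ∀ τ ∈ I, ∀ v : V, τ • τ • v + v = τ • v + τ • v)
    {τ₀ : G} (hτ₀ : τ₀ ∈ I) (hgen : ∀ τ ∈ I, ∃ n : ℤ, ∀ v : V, τ • v = τ₀ ^ n • v) :
    Nat.card V ≤ Nat.card {v : V // ∀ τ ∈ I, τ • v = v} ^ 2 := by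
  let t : V →+ V := DistribSMul.toAddMonoidHom V τ₀
  have ht : ∀ v, t (t v) + v = t v + t v := hunip τ₀ hτ₀
  have h1 := card_le_card_fixed_sq t ht
  have h2 : Nat.card ((t - AddMonoidHom.id V).ker) = Nat.card {v : V // ∀ τ ∈ I, τ • v = v} := by
    refine Nat.card_congr (Equiv.subtypeEquivRight fun v => ?_)
    rw [AddMonoidHom.mem_ker, AddMonoidHom.sub_apply, AddMonoidHom.id_apply, sub_eq_zero]
    constructor
    · intro hv τ hτ
      obtain ⟨n, hn⟩ := hgen τ hτ
      rw [hn]
      exact zpow_smul_eq_self_of_smul_eq_self hv n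
    · intro hv
      exact hv τ₀ hτ₀
  rw [h2] at h1
  exact h1

end Action

end Fermat.Agent.MAZ.InertiaInv5
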