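/-
Fermat/Agent/MAZ/InertiaInv5/Main.lean  (helper5)

Programme MAZ (S15), input (A2) of report 976 §3: **the inertia invariants of a unipotent module
have at least half the length.**

`Γ = Gal(ℚ̄/ℚ)`, `A` a valuation subring of `ℚ̄` over the prime `p`, `I = A.inertiaSubgroupIn ℚ`,
`r ≠ p` a prime.  Let `V` be a finite `Γ`-module killed by a power of `r`, of finite level (the
automorphisms fixing a finite extension `L` act trivially), on which every `τ ∈ I` satisfies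
`(τ - 1)² = 0`.  Then the image of `I` in `Aut V` is cyclic (tame inertia: `TW/Tame22`), hence

  `card_le_card_inertia_fixed_sq` : `|V| ≤ |V^I|²`,
  `card_le_card_Inv_sq`           : the same with helper42's `SelCoh42.Inv I V`,
  `two_mul_le_of_card_eq`         : `|V| = r ^ ℓ`, `|V^I| = r ^ i`  ⇒  `ℓ ≤ 2 * i`.
-/
import Mathlib
import Fermat.Agent.TW.Tame22.Hom
import Fermat.Agent.MAZ.SelCoh42.LES
import Fermat.Agent.MAZ.InertiaInv5.Unip

set_option autoImplicit false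
set_option linter.unusedSectionVars false

namespace Fermat.Agent.MAZ.InertiaInv5

local notation "Qbar" => AlgebraicClosure ℚ
local notation "Γ" => (AlgebraicClosure ℚ ≃ₐ[ℚ] AlgebraicClosure ℚ)

variable {V : Type*} [AddCommGroup V] [DistribMulAction Γ V]

/-- The image of inertia at `p` in the automorphisms of a finite-level unipotent `r`-power torsion
module is generated by one element. -/
theorem exists_inertia_generator {p r : ℕ} (hp : p.Prime) (hr : r.Prime) (hrp : r ≠ p)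
    (A : ValuationSubring Qbar) (hA : A.LiesOverPrime p)
    (L : IntermediateField ℚ Qbar) [FiniteDimensional ℚ L]
    (hL : ∀ σ : Γ, (∀ x ∈ L, σ x = x) → ∀ v : V, σ • v = v)
    {k : ℕ} (hV : ∀ v : V, r ^ k • v = 0)
    (hunip : ∀ τ ∈ A.inertiaSubgroupIn ℚ, ∀ v : V, τ • τ • v + v = τ • v + τ • v) :
    ∃ τ₀ ∈ A.inertiaSubgroupIn ℚ, ∀ τ ∈ A.inertiaSubgroupIn ℚ,
      ∃ n : ℤ, ∀ v : V, τ • v = τ₀ ^ n • v := by
  let g : Γ →* Equiv.Perm V := MulAction.toPermHom Γ V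
  have hg : ∀ (σ : Γ) (v : V), g σ v = σ • v := fun _ _ => rfl
  have hgL : ∀ σ : Γ, (∀ x ∈ L, σ x = x) → g σ = 1 := by
    intro σ hσ
    ext v
    exact hL σ hσ v
  have hpow : ∀ τ ∈ A.inertiaSubgroupIn ℚ, ∃ b : ℕ, g τ ^ (r ^ b) = 1 := by
    intro τ hτ
    refine ⟨k, ?_⟩
    rw [← map_pow]
    ext v
    exact pow_smul_eq_self_of_unip (hunip τ hτ) hV v
  obtain ⟨τ₀, hτ₀, h⟩ :=
    Fermat.Agent.TW.Tame22.Hom.exists_generator_of_hom g hp hr hrp A hA L hgL hpow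
  refine ⟨τ₀, hτ₀, fun τ hτ => ?_⟩
  obtain ⟨n, hn⟩ := h τ hτ
  refine ⟨n, fun v => ?_⟩
  have : g τ v = (g τ₀ ^ n) v := by rw [hn]
  rw [← map_zpow] at this
  exact this

/-- **(A2)**: `|V| ≤ |V^I|²`. -/
theorem card_le_card_inertia_fixed_sq [Finite V] {p r : ℕ} (hp : p.Prime) (hr : r.Prime)
    (hrp : r ≠ p) (A : ValuationSubring Qbar) (hA : A.LiesOverPrime p)
    (L : IntermediateField ℚ Qbar) [FiniteDimensional ℚ L]
    (hL : ∀ σ : Γ, (∀ x ∈ L, σ x = x) → ∀ v : V, σ • v = v)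
    {k : ℕ} (hV : ∀ v : V, r ^ k • v = 0)
    (hunip : ∀ τ ∈ A.inertiaSubgroupIn ℚ, ∀ v : V, τ • τ • v + v = τ • v + τ • v) :
    Nat.card V ≤ Nat.card {v : V // ∀ τ ∈ A.inertiaSubgroupIn ℚ, τ • v = v} ^ 2 := by
  obtain ⟨τ₀, hτ₀, hgen⟩ := exists_inertia_generator hp hr hrp A hA L hL hV hunip
  exact card_le_card_fixed_sq_of_cyclic (A.inertiaSubgroupIn ℚ) hunip hτ₀ hgen

/-- **(A2)** in the vocabulary of `SelCoh42`. -/
theorem card_le_card_Inv_sq {V : Type} [AddCommGroup V] [DistribMulAction Γ V] [Finite V]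
    {p r : ℕ} (hp : p.Prime) (hr : r.Prime)
    (hrp : r ≠ p) (A : ValuationSubring Qbar) (hA : A.LiesOverPrime p)
    (L : IntermediateField ℚ Qbar) [FiniteDimensional ℚ L]
    (hL : ∀ σ : Γ, (∀ x ∈ L, σ x = x) → ∀ v : V, σ • v = v)
    {k : ℕ} (hV : ∀ v : V, r ^ k • v = 0)
    (hunip : ∀ τ ∈ A.inertiaSubgroupIn ℚ, ∀ v : V, τ • τ • v + v = τ • v + τ • v) :
    Nat.card V ≤ Nat.card (Fermat.Agent.MAZ.SelCoh42.Inv (A.inertiaSubgroupIn ℚ) V) ^ 2 :=
  card_le_card_inertia_fixed_sq hp hr hrp A hA L hL hV hunip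

/-- Exponent form: `|V| = r ^ ℓ` and `|V^I| = r ^ i` give `ℓ ≤ 2 * i`. -/
theorem two_mul_le_of_card_eq {r : ℕ} (hr : r.Prime) {a b ℓ i : ℕ} (ha : a = r ^ ℓ)
    (hb : b = r ^ i) (h : a ≤ b ^ 2) : ℓ ≤ 2 * i := by
  rw [ha, hb, ← pow_mul] at h
  have := (Nat.pow_le_pow_iff_right hr.one_lt).1 h
  omega

end Fermat.Agent.MAZ.InertiaInv5
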